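import Mathlib
import Fermat.Prelude.Def_EllipticCurve_FrobeniusTrace
import Fermat.Prelude.Def_FLTPrelim_Ramification

/-!
# P-FDT: the Frobenius density theorem, existence form (interfaces)

The *weak* form of Chebotarev that is sufficient for every trace / determinant / quadratic-relation
argument downstream: every element `g` of a finite Galois group over `ℚ` generates the same cyclic
subgroup as an arithmetic Frobenius at some prime over some `ℓ ∉ S`.  Its proof needs no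
`L`-functions: only the simple pole of Dedekind zeta functions at `s = 1` and the splitting of
primes (decomposition groups) in a Galois extension.

This file only contains definitions (the interfaces of the work packages).
-/

set_option autoImplicit false

open scoped NumberField Pointwise
open IsDedekindDomain

namespace Fermat.Agent.H72

/-- **FDT, finite level** (target of the project).  Every `g ∈ Gal(L/ℚ)` generates the same
cyclic subgroup as an arithmetic Frobenius `τ` at a prime `P` of `𝓞 L` over a rational prime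
`ℓ ∉ S`. -/
def FrobPowFiniteStatement : Prop :=
  ∀ (L : Type) [Field L] [NumberField L] [IsGalois ℚ L] (g : L ≃ₐ[ℚ] L) (S : Finset ℕ),
    ∃ ℓ : ℕ, ℓ.Prime ∧ ℓ ∉ S ∧ ∃ P : Ideal (𝓞 L), P.IsPrime ∧ (ℓ : 𝓞 L) ∈ P ∧
      ∃ (τ : L ≃ₐ[ℚ] L) (k j : ℕ), (∀ x : 𝓞 L, τ • x - x ^ ℓ ∈ P) ∧ g = τ ^ k ∧ τ = g ^ j

/-- **FDT, prelude language** (FDT-E).  Every `g ∈ Gal(ℚ̄/ℚ)` agrees on a given
finite-dimensional intermediate field `F` with a power of a Frobenius lift `σ` at a place `A` of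
`ℚ̄` over some `ℓ ∉ S`, and conversely `σ` agrees on `F` with a power of `g`. -/
def FrobPowStatement : Prop :=
  ∀ (F : IntermediateField ℚ (AlgebraicClosure ℚ)), FiniteDimensional ℚ F →
    ∀ (g : AlgebraicClosure ℚ ≃ₐ[ℚ] AlgebraicClosure ℚ) (S : Finset ℕ),
    ∃ (ℓ : ℕ) (A : ValuationSubring (AlgebraicClosure ℚ))
      (σ : AlgebraicClosure ℚ ≃ₐ[ℚ] AlgebraicClosure ℚ) (k j : ℕ),
      ℓ.Prime ∧ ℓ ∉ S ∧ A.LiesOverPrime ℓ ∧ A.IsFrobeniusAt σ ℓ ∧
        (∀ x ∈ F, g x = (σ ^ k) x) ∧ (∀ x ∈ F, σ x = (g ^ j) x)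

/-- **FDT-A (analytic).**  For every number field `M` and every finite set `S` of rational primes,
`∑_{ℓ ∉ S} #{primes u of M with N(u) = ℓ} · ℓ^(-s) = log (1/(s-1)) + O(1)` as `s → 1⁺`. -/
def DegOneCountStatement : Prop :=
  ∀ (M : Type) [Field M] [NumberField M] (S : Finset ℕ),
    ∃ C : ℝ, ∀ᶠ s : ℝ in nhdsWithin 1 (Set.Ioi 1),
      |(∑' ℓ : {ℓ : ℕ // ℓ.Prime ∧ ℓ ∉ S},
          (Nat.card {u : HeightOneSpectrum (𝓞 M) // Ideal.absNorm u.asIdeal = (ℓ : ℕ)} : ℝ) *
            ((ℓ : ℕ) : ℝ) ^ (-s)) - Real.log (1 / (s - 1))| ≤ C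

/-- Weighted count of the primes `P` of `L` over `ℓ` whose decomposition group
(`MulAction.stabilizer`) is contained in `H`; the weight of `P` is the order of its
decomposition group. -/
noncomputable def decCount (L : Type) [Field L] [NumberField L]
    (H : Subgroup (L ≃ₐ[ℚ] L)) (ℓ : ℕ) : ℕ :=
  ∑ᶠ P : {P : Ideal (𝓞 L) // P.IsPrime ∧ (ℓ : 𝓞 L) ∈ P ∧
      MulAction.stabilizer (L ≃ₐ[ℚ] L) P ≤ H},
    Nat.card (MulAction.stabilizer (L ≃ₐ[ℚ] L) P.1)

/-- **FDT-B (algebraic, local at one unramified prime `ℓ`).**  The primes of degree one over `ℓ`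
of the fixed field `M = L^H` are counted by the primes of `L` over `ℓ` with decomposition group
inside `H`:  `decCount L H ℓ = #H · #{u prime of M : N(u) = ℓ}`. -/
def LocalCountStatement : Prop :=
  ∀ (L : Type) [Field L] [NumberField L] [IsGalois ℚ L] (H : Subgroup (L ≃ₐ[ℚ] L)) (ℓ : ℕ),
    ℓ.Prime →
    (∀ (P : Ideal (𝓞 L)) [P.IsPrime], (ℓ : 𝓞 L) ∈ P → Algebra.IsUnramifiedAt ℤ P) →
    decCount L H ℓ = Nat.card H *
      Nat.card {u : HeightOneSpectrum (𝓞 (IntermediateField.fixedField H)) //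
        Ideal.absNorm u.asIdeal = ℓ}

/-- **FDT-U.**  Only finitely many rational primes ramify in `L`. -/
def FiniteRamifiedStatement : Prop :=
  ∀ (L : Type) [Field L] [NumberField L], ∃ S₀ : Finset ℕ,
    ∀ (ℓ : ℕ) (P : Ideal (𝓞 L)) [P.IsPrime], ℓ.Prime → ℓ ∉ S₀ → (ℓ : 𝓞 L) ∈ P →
      Algebra.IsUnramifiedAt ℤ P

/-- **FDT-D.**  At an unramified prime `P` of a Galois number field the decomposition group is
cyclic, generated by an arithmetic Frobenius. -/
def FrobGeneratesStatement : Prop :=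
  ∀ (L : Type) [Field L] [NumberField L] [IsGalois ℚ L] (P : Ideal (𝓞 L)) [P.IsPrime] (ℓ : ℕ),
    ℓ.Prime → (ℓ : 𝓞 L) ∈ P → Algebra.IsUnramifiedAt ℤ P →
    ∃ τ : L ≃ₐ[ℚ] L, (∀ x : 𝓞 L, τ • x - x ^ ℓ ∈ P) ∧
      MulAction.stabilizer (L ≃ₐ[ℚ] L) P = Subgroup.zpowers τ

/-- **FDT-C (Möbius + divergence).**  Output of the density argument: for every `g` there is a
prime `P` over some `ℓ ∉ S` whose decomposition group is exactly `⟨g⟩`. -/
def ExistsDecEqStatement : Prop :=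
  ∀ (L : Type) [Field L] [NumberField L] [IsGalois ℚ L] (g : L ≃ₐ[ℚ] L) (S : Finset ℕ),
    ∃ ℓ : ℕ, ℓ.Prime ∧ ℓ ∉ S ∧ ∃ P : Ideal (𝓞 L), P.IsPrime ∧ (ℓ : 𝓞 L) ∈ P ∧
      MulAction.stabilizer (L ≃ₐ[ℚ] L) P = Subgroup.zpowers g

end Fermat.Agent.H72
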