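import Fermat.Agent.H72.FDT.Interfaces

/-!
# P-FDT, assembly (FDT-F): `ExistsDecEq + FrobGenerates + FiniteRamified ⇒ FrobPowFinite`
-/

set_option autoImplicit false

open scoped NumberField Pointwise
open IsDedekindDomain

namespace Fermat.Agent.H72

/-- In a finite group, membership in `zpowers` is witnessed by a natural power. -/
theorem exists_npow_eq_of_mem_zpowers {G : Type*} [Group G] [Finite G] {a b : G}
    (h : a ∈ Subgroup.zpowers b) : ∃ k : ℕ, a = b ^ k := by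
  rw [← mem_powers_iff_mem_zpowers] at h
  obtain ⟨k, hk⟩ := h
  exact ⟨k, hk.symm⟩

/-- **FDT-F.** -/
theorem frobPowFinite_of (hC : ExistsDecEqStatement) (hD : FrobGeneratesStatement)
    (hU : FiniteRamifiedStatement) : FrobPowFiniteStatement := by
  intro L _ _ _ g S
  obtain ⟨S₀, hS₀⟩ := hU L
  obtain ⟨ℓ, hℓ, hℓS, P, hP, hℓP, hstab⟩ := hC L g (S ∪ S₀)
  have hℓS' : ℓ ∉ S := fun h => hℓS (Finset.mem_union_left _ h)
  have hℓS₀ : ℓ ∉ S₀ := fun h => hℓS (Finset.mem_union_right _ h)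
  have := hP
  have hunr : Algebra.IsUnramifiedAt ℤ P := hS₀ ℓ P hℓ hℓS₀ hℓP
  obtain ⟨τ, hτ, hτstab⟩ := hD L P ℓ hℓ hℓP hunr
  have heq : Subgroup.zpowers g = Subgroup.zpowers τ := hstab.symm.trans hτstab
  have hg : g ∈ Subgroup.zpowers τ := heq ▸ Subgroup.mem_zpowers g
  have hτ' : τ ∈ Subgroup.zpowers g := heq ▸ Subgroup.mem_zpowers τ
  obtain ⟨k, hk⟩ := exists_npow_eq_of_mem_zpowers hg
  obtain ⟨j, hj⟩ := exists_npow_eq_of_mem_zpowers hτ'
  exact ⟨ℓ, hℓ, hℓS', P, hP, hℓP, τ, k, j, hτ, hk, hj⟩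

end Fermat.Agent.H72
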