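import Mathlib

/-!
# P-FDT, abstract Möbius + divergence lemma (part of FDT-C)

If for every divisor `d` of `n` the series `∑_ℓ G d ℓ · w ℓ s` equals `d · log (1/(s-1)) + O(1)`
as `s → 1⁺`, then the Möbius combination `∑_{ab = n} μ(a) G b ℓ` is nonzero for some `ℓ`.
-/

set_option autoImplicit false

open Filter Topology ArithmeticFunction
open scoped ArithmeticFunction.Moebius

namespace Fermat.Agent.H72

/-- `∑_{ab = n} μ(a) b = φ(n)`. -/
theorem sum_moebius_mul_eq_totient (n : ℕ) (hn : 0 < n) :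
    ∑ x ∈ n.divisorsAntidiagonal, (μ x.1 : ℤ) * (x.2 : ℤ) = (n.totient : ℤ) := by
  have h := (sum_eq_iff_sum_mul_moebius_eq (R := ℤ) (f := fun m => (m.totient : ℤ))
    (g := fun m => (m : ℤ))).mp ?_ n hn
  · exact h
  · intro m _
    exact_mod_cast Nat.sum_totient m

theorem tendsto_log_one_div_sub_one :
    Tendsto (fun s : ℝ => Real.log (1 / (s - 1))) (𝓝[>] 1) atTop := by
  have h1 : Tendsto (fun s : ℝ => s - 1) (𝓝[>] 1) (𝓝[>] 0) := by
    refine tendsto_nhdsWithin_of_tendsto_nhds_of_eventually_within _ ?_ ?_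
    · have : Tendsto (fun s : ℝ => s - 1) (𝓝 1) (𝓝 (1 - 1)) :=
        (continuous_id.sub continuous_const).tendsto 1
      rw [sub_self] at this
      exact this.mono_left nhdsWithin_le_nhds
    · filter_upwards [self_mem_nhdsWithin] with s hs
      exact Set.mem_Ioi.mpr (sub_pos.mpr (Set.mem_Ioi.mp hs))
  have h2 : Tendsto (fun s : ℝ => 1 / (s - 1)) (𝓝[>] 1) atTop := by
    simp only [one_div]
    exact tendsto_inv_nhdsGT_zero.comp h1
  exact Real.tendsto_log_atTop.comp h2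

/-- **Abstract Möbius + divergence lemma.** -/
theorem exists_moebius_sum_ne_zero {ι : Type*} (w : ι → ℝ → ℝ) (n : ℕ) (hn : 0 < n)
    (G : ℕ → ι → ℕ)
    (hdens : ∀ d ∈ n.divisors, ∃ C : ℝ, ∀ᶠ s : ℝ in 𝓝[>] 1,
      |(∑' ℓ, (G d ℓ : ℝ) * w ℓ s) - d * Real.log (1 / (s - 1))| ≤ C) :
    ∃ ℓ, ∑ x ∈ n.divisorsAntidiagonal, (μ x.1 : ℤ) * (G x.2 ℓ : ℤ) ≠ 0 := by
  by_contra hcon
  push Not at hcon
  choose! C hC using hdens
  have hev : ∀ᶠ s : ℝ in 𝓝[>] 1, ∀ d ∈ n.divisors,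
      |(∑' ℓ, (G d ℓ : ℝ) * w ℓ s) - d * Real.log (1 / (s - 1))| ≤ C d :=
    (eventually_all_finset _).mpr hC
  set B : ℝ := ∑ d ∈ n.divisors, |C d| with hB
  have hev2 : ∀ᶠ s : ℝ in 𝓝[>] 1, B < Real.log (1 / (s - 1)) :=
    tendsto_log_one_div_sub_one.eventually (eventually_gt_atTop B)
  obtain ⟨s, hs1, hs2⟩ := (hev.and hev2).exists
  set L : ℝ := Real.log (1 / (s - 1)) with hL
  have hB0 : 0 ≤ B := Finset.sum_nonneg fun d _ => abs_nonneg _
  have hLpos : 0 < L := lt_of_le_of_lt hB0 hs2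
  have hCB : ∀ d ∈ n.divisors, C d ≤ B := fun d hd =>
    (le_abs_self _).trans (Finset.single_le_sum (f := fun d => |C d|)
      (fun i _ => abs_nonneg _) hd)
  -- summability of every series
  have hsum : ∀ d ∈ n.divisors, Summable (fun ℓ => (G d ℓ : ℝ) * w ℓ s) := by
    intro d hd
    by_contra hns
    have h0 := tsum_eq_zero_of_not_summable hns
    have h1 := hs1 d hd
    rw [h0, zero_sub, abs_neg] at h1
    have hd1 : (1 : ℝ) ≤ d := by
      exact_mod_cast Nat.pos_of_mem_divisors hd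
    have h2 : L ≤ |(d : ℝ) * L| := by
      rw [abs_of_pos (by positivity)]
      nlinarith
    linarith [hCB d hd]
  -- the Möbius combination of the series vanishes
  have hmem : ∀ x ∈ n.divisorsAntidiagonal, x.2 ∈ n.divisors := fun x hx =>
    Nat.snd_mem_divisors_of_mem_antidiagonal hx
  have key : ∑ x ∈ n.divisorsAntidiagonal, (μ x.1 : ℝ) * ∑' ℓ, (G x.2 ℓ : ℝ) * w ℓ s = 0 := by
    have h1 : ∀ x ∈ n.divisorsAntidiagonal,
        Summable (fun ℓ => (μ x.1 : ℝ) * ((G x.2 ℓ : ℝ) * w ℓ s)) := fun x hx =>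
      (hsum x.2 (hmem x hx)).mul_left _
    calc ∑ x ∈ n.divisorsAntidiagonal, (μ x.1 : ℝ) * ∑' ℓ, (G x.2 ℓ : ℝ) * w ℓ s
        = ∑ x ∈ n.divisorsAntidiagonal, ∑' ℓ, (μ x.1 : ℝ) * ((G x.2 ℓ : ℝ) * w ℓ s) := by
          refine Finset.sum_congr rfl fun x _ => ?_
          rw [tsum_mul_left]
      _ = ∑' ℓ, ∑ x ∈ n.divisorsAntidiagonal, (μ x.1 : ℝ) * ((G x.2 ℓ : ℝ) * w ℓ s) :=
          (Summable.tsum_finsetSum h1).symm
      _ = ∑' ℓ : ι, (0 : ℝ) := by
          congr 1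
          funext ℓ
          have h2 := hcon ℓ
          have h3 : ∑ x ∈ n.divisorsAntidiagonal, (μ x.1 : ℝ) * ((G x.2 ℓ : ℝ) * w ℓ s)
              = ((∑ x ∈ n.divisorsAntidiagonal, (μ x.1 : ℤ) * (G x.2 ℓ : ℤ) : ℤ) : ℝ) * w ℓ s := by
            push_cast
            rw [Finset.sum_mul]
            refine Finset.sum_congr rfl fun x _ => ?_
            ring
          rw [h3, h2]
          simp
      _ = 0 := tsum_zero
  -- main term
  have htot : ∑ x ∈ n.divisorsAntidiagonal, (μ x.1 : ℝ) * ((x.2 : ℝ) * L) = (n.totient : ℝ) * L := by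
    have h := sum_moebius_mul_eq_totient n hn
    have h' : ((∑ x ∈ n.divisorsAntidiagonal, (μ x.1 : ℤ) * (x.2 : ℤ) : ℤ) : ℝ)
        = ((n.totient : ℤ) : ℝ) := by rw [h]
    push_cast at h'
    rw [← h', Finset.sum_mul]
    refine Finset.sum_congr rfl fun x _ => ?_
    ring
  have hdiff : (n.totient : ℝ) * L
      = ∑ x ∈ n.divisorsAntidiagonal,
          (μ x.1 : ℝ) * ((x.2 : ℝ) * L - ∑' ℓ, (G x.2 ℓ : ℝ) * w ℓ s) := by
    rw [← htot, ← sub_zero (∑ x ∈ n.divisorsAntidiagonal, (μ x.1 : ℝ) * ((x.2 : ℝ) * L)), ← key,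
      ← Finset.sum_sub_distrib]
    refine Finset.sum_congr rfl fun x _ => ?_
    ring
  have hbound : |(n.totient : ℝ) * L| ≤ B := by
    rw [hdiff]
    refine (Finset.abs_sum_le_sum_abs _ _).trans ?_
    have h1 : ∀ x ∈ n.divisorsAntidiagonal,
        |(μ x.1 : ℝ) * ((x.2 : ℝ) * L - ∑' ℓ, (G x.2 ℓ : ℝ) * w ℓ s)| ≤ |C x.2| := by
      intro x hx
      rw [abs_mul]
      have hμ : |((μ x.1 : ℤ) : ℝ)| ≤ 1 := by
        have := ArithmeticFunction.abs_moebius_le_one (n := x.1)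
        exact_mod_cast this
      have h2 := hs1 x.2 (hmem x hx)
      rw [abs_sub_comm] at h2
      calc |((μ x.1 : ℤ) : ℝ)| * |(x.2 : ℝ) * L - ∑' ℓ, (G x.2 ℓ : ℝ) * w ℓ s|
          ≤ 1 * C x.2 := mul_le_mul hμ h2 (abs_nonneg _) zero_le_one
        _ = C x.2 := one_mul _
        _ ≤ |C x.2| := le_abs_self _
    refine (Finset.sum_le_sum h1).trans ?_
    rw [hB]
    -- reindex the sum over the antidiagonal by the second component
    have h2 : ∑ x ∈ n.divisorsAntidiagonal, |C x.2| = ∑ d ∈ n.divisors, |C d| :=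
      Nat.sum_divisorsAntidiagonal' (f := fun _ y => |C y|)
    exact h2.le
  have hφ : (1 : ℝ) ≤ n.totient := by
    exact_mod_cast Nat.totient_pos.mpr hn
  have h3 : L ≤ |(n.totient : ℝ) * L| := by
    rw [abs_of_pos (by positivity)]
    nlinarith
  linarith

end Fermat.Agent.H72
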