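import Fermat.Agent.H72.FDT.Interfaces
import Fermat.Agent.H72.FDT.Moebius

/-!
# P-FDT, FDT-C: existence of a prime with prescribed cyclic decomposition group

`existsDecEq_of : DegOneCountStatement → LocalCountStatement → FiniteRamifiedStatement →
  ExistsDecEqStatement`.

Möbius inversion over the divisors of `n = orderOf g` applied to the weighted counts
`decCount L (zpowers (g ^ (n / d))) ℓ`, followed by the abstract divergence lemma
`exists_moebius_sum_ne_zero`.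
-/

set_option autoImplicit false

open scoped NumberField Pointwise
open IsDedekindDomain Filter Topology ArithmeticFunction
open scoped ArithmeticFunction.Moebius

namespace Fermat.Agent.H72

section Group

variable {G : Type*} [Group G] [Finite G]

theorem card_zpowers_pow_div (g : G) {d : ℕ} (hd : d ∣ orderOf g) :
    Nat.card (Subgroup.zpowers (g ^ (orderOf g / d))) = d := by
  have hn : 0 < orderOf g := orderOf_pos g
  have hd0 : 0 < d := Nat.pos_of_dvd_of_pos hd hn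
  have hdiv : orderOf g / d ∣ orderOf g := Nat.div_dvd_of_dvd hd
  have hne : orderOf g / d ≠ 0 := (Nat.div_pos (Nat.le_of_dvd hn hd) hd0).ne'
  rw [Nat.card_zpowers, orderOf_pow_of_dvd hne hdiv, Nat.div_div_self hd hn.ne']

/-- Subgroups of the cyclic group `⟨g⟩`: `D ≤ ⟨g^(n/d)⟩` iff `D ≤ ⟨g⟩` and `#D ∣ d`. -/
theorem le_zpowers_pow_div_iff (g : G) {d : ℕ} (hd : d ∣ orderOf g) (D : Subgroup G) :
    D ≤ Subgroup.zpowers (g ^ (orderOf g / d)) ↔
      D ≤ Subgroup.zpowers g ∧ Nat.card D ∣ d := by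
  have hn : 0 < orderOf g := orderOf_pos g
  have hd0 : 0 < d := Nat.pos_of_dvd_of_pos hd hn
  constructor
  · intro h
    refine ⟨h.trans (Subgroup.zpowers_le.mpr (Subgroup.npow_mem_zpowers g _)), ?_⟩
    have := Subgroup.card_dvd_of_le h
    rwa [card_zpowers_pow_div g hd] at this
  · rintro ⟨h1, h2⟩ x hx
    obtain ⟨k, rfl⟩ := Subgroup.mem_zpowers_iff.mp (h1 hx)
    have hxm : (g ^ k) ^ (Nat.card D) = 1 := by
      have h3 : ((⟨g ^ k, hx⟩ : D) ^ Nat.card D : D) = 1 := pow_card_eq_one'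
      have h4 := congrArg Subtype.val h3
      rwa [Subgroup.coe_pow, Subgroup.coe_one] at h4
    have hxd : (g ^ k) ^ d = 1 := by
      obtain ⟨c, hc⟩ := h2
      rw [hc, pow_mul, hxm, one_pow]
    have hdvd : (orderOf g : ℤ) ∣ k * d := by
      rw [orderOf_dvd_iff_zpow_eq_one, zpow_mul]
      exact_mod_cast hxd
    obtain ⟨n', hn'⟩ := hd
    have hn'0 : n' ≠ 0 := by
      rintro rfl
      rw [mul_zero] at hn'
      omega
    have hdiv : orderOf g / d = n' := by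
      rw [hn', Nat.mul_div_cancel_left _ hd0]
    have hdvd' : (n' : ℤ) ∣ k := by
      rw [hn'] at hdvd
      push_cast at hdvd
      rw [mul_comm (d : ℤ) (n' : ℤ)] at hdvd
      exact Int.dvd_of_mul_dvd_mul_right (by exact_mod_cast hd0.ne') hdvd
    obtain ⟨t, rfl⟩ := hdvd'
    rw [hdiv, Subgroup.mem_zpowers_iff]
    refine ⟨t, ?_⟩
    rw [← zpow_natCast, ← zpow_mul]

end Group

section NumberField

variable (L : Type) [Field L] [NumberField L]

/-- The set of primes of `𝓞 L` containing `ℓ`. -/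
def primesAbove (ℓ : ℕ) : Set (Ideal (𝓞 L)) := {P | P.IsPrime ∧ (ℓ : 𝓞 L) ∈ P}

theorem finite_primesAbove (ℓ : ℕ) (hℓ : ℓ ≠ 0) : (primesAbove L ℓ).Finite := by
  have hI : Ideal.span {(ℓ : 𝓞 L)} ≠ 0 := by
    rw [Ne, Ideal.zero_eq_bot, Ideal.span_singleton_eq_bot]
    exact_mod_cast hℓ
  have hfin := Ideal.finite_factors hI
  refine (hfin.image (fun v => v.asIdeal)).subset ?_
  rintro P ⟨hP, hmem⟩
  have hne : P ≠ ⊥ := by
    rintro rfl
    rw [Ideal.mem_bot] at hmem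
    exact hℓ (by exact_mod_cast hmem)
  refine ⟨⟨P, hP, hne⟩, ?_, rfl⟩
  show P ∣ Ideal.span {(ℓ : 𝓞 L)}
  rw [Ideal.dvd_iff_le, Ideal.span_singleton_le_iff_mem]
  exact hmem

open scoped Classical in
theorem decCount_eq_sum (H : Subgroup (L ≃ₐ[ℚ] L)) (ℓ : ℕ) (hℓ : ℓ ≠ 0) :
    decCount L H ℓ = ∑ P ∈ (finite_primesAbove L ℓ hℓ).toFinset.filter
        (fun P => MulAction.stabilizer (L ≃ₐ[ℚ] L) P ≤ H),
      Nat.card (MulAction.stabilizer (L ≃ₐ[ℚ] L) P) := by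
  unfold decCount
  have hset : {P : Ideal (𝓞 L) | P.IsPrime ∧ (ℓ : 𝓞 L) ∈ P ∧
      MulAction.stabilizer (L ≃ₐ[ℚ] L) P ≤ H}
      = ↑((finite_primesAbove L ℓ hℓ).toFinset.filter
        (fun P => MulAction.stabilizer (L ≃ₐ[ℚ] L) P ≤ H)) := by
    ext P
    simp [primesAbove, and_assoc]
  have := finsum_mem_coe_finset (fun P : Ideal (𝓞 L) =>
      Nat.card (MulAction.stabilizer (L ≃ₐ[ℚ] L) P))
    ((finite_primesAbove L ℓ hℓ).toFinset.filter
        (fun P => MulAction.stabilizer (L ≃ₐ[ℚ] L) P ≤ H))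
  rw [← this, ← hset]
  exact finsum_set_coe_eq_finsum_mem (s := {P : Ideal (𝓞 L) | P.IsPrime ∧ (ℓ : 𝓞 L) ∈ P ∧
      MulAction.stabilizer (L ≃ₐ[ℚ] L) P ≤ H})
    (f := fun P => Nat.card (MulAction.stabilizer (L ≃ₐ[ℚ] L) P))

open scoped Classical in
/-- Pointwise Möbius inversion: if the Möbius combination of the weighted counts is nonzero at
`ℓ`, some prime over `ℓ` has decomposition group exactly `⟨g⟩`. -/
theorem exists_stabilizer_eq_of_moebius_ne_zero (g : L ≃ₐ[ℚ] L) (ℓ : ℕ) (hℓ : ℓ ≠ 0)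
    (h : ∑ x ∈ (orderOf g).divisorsAntidiagonal,
      (μ x.1 : ℤ) * (decCount L (Subgroup.zpowers (g ^ (orderOf g / x.2))) ℓ : ℤ) ≠ 0) :
    ∃ P : Ideal (𝓞 L), P.IsPrime ∧ (ℓ : 𝓞 L) ∈ P ∧
      MulAction.stabilizer (L ≃ₐ[ℚ] L) P = Subgroup.zpowers g := by
  set n := orderOf g with hn
  have hnpos : 0 < n := orderOf_pos g
  set A : Finset (Ideal (𝓞 L)) := (finite_primesAbove L ℓ hℓ).toFinset.filter
    (fun P => MulAction.stabilizer (L ≃ₐ[ℚ] L) P ≤ Subgroup.zpowers g) with hA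
  set f : ℕ → ℤ := fun m =>
    (m : ℤ) * ((A.filter (fun P => Nat.card (MulAction.stabilizer (L ≃ₐ[ℚ] L) P) = m)).card : ℤ)
    with hf
  set gg : ℕ → ℤ := fun d => (decCount L (Subgroup.zpowers (g ^ (n / d))) ℓ : ℤ) with hgg
  have hsum : ∀ d > 0, d ∈ {d : ℕ | d ∣ n} → ∑ m ∈ d.divisors, f m = gg d := by
    intro d hd0 hdn
    have hdn' : d ∣ n := hdn
    have hfilter : (finite_primesAbove L ℓ hℓ).toFinset.filter
        (fun P => MulAction.stabilizer (L ≃ₐ[ℚ] L) P ≤ Subgroup.zpowers (g ^ (n / d)))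
        = A.filter (fun P => Nat.card (MulAction.stabilizer (L ≃ₐ[ℚ] L) P) ∣ d) := by
      ext P
      simp only [hA, Finset.mem_filter, and_assoc]
      rw [le_zpowers_pow_div_iff g hdn']
    have hmaps : ∀ P ∈ A.filter (fun P => Nat.card (MulAction.stabilizer (L ≃ₐ[ℚ] L) P) ∣ d),
        Nat.card (MulAction.stabilizer (L ≃ₐ[ℚ] L) P) ∈ d.divisors := by
      intro P hP
      rw [Finset.mem_filter] at hP
      exact Nat.mem_divisors.mpr ⟨hP.2, hd0.ne'⟩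
    simp only [hgg, hf]
    rw [decCount_eq_sum L _ ℓ hℓ, hfilter, ← Finset.sum_fiberwise_of_maps_to hmaps]
    push_cast
    refine Finset.sum_congr rfl fun m hm => ?_
    have hmd : m ∣ d := Nat.dvd_of_mem_divisors hm
    have hfil : (A.filter (fun P => Nat.card (MulAction.stabilizer (L ≃ₐ[ℚ] L) P) ∣ d)).filter
        (fun P => Nat.card (MulAction.stabilizer (L ≃ₐ[ℚ] L) P) = m)
        = A.filter (fun P => Nat.card (MulAction.stabilizer (L ≃ₐ[ℚ] L) P) = m) := by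
      ext P
      simp only [Finset.mem_filter]
      constructor
      · rintro ⟨⟨h1, _⟩, h3⟩
        exact ⟨h1, h3⟩
      · rintro ⟨h1, h3⟩
        exact ⟨⟨h1, h3 ▸ hmd⟩, h3⟩
    rw [hfil, Finset.sum_congr rfl (fun P hP => by
      rw [(Finset.mem_filter.mp hP).2] :
        ∀ P ∈ A.filter (fun P => Nat.card (MulAction.stabilizer (L ≃ₐ[ℚ] L) P) = m),
          ((Nat.card (MulAction.stabilizer (L ≃ₐ[ℚ] L) P) : ℕ) : ℤ) = (m : ℤ))]
    rw [Finset.sum_const, nsmul_eq_mul, mul_comm]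
  have hinv := (sum_eq_iff_sum_mul_moebius_eq_on (R := ℤ) (f := f) (g := gg) {d : ℕ | d ∣ n}
    (fun m k hmk hk => dvd_trans hmk hk)).mp hsum n hnpos (dvd_refl n)
  have hfn : f n ≠ 0 := by
    rw [← hinv]
    exact h
  simp only [hf] at hfn
  have hcard : (A.filter
      (fun P => Nat.card (MulAction.stabilizer (L ≃ₐ[ℚ] L) P) = n)).card ≠ 0 := by
    intro h0
    apply hfn
    rw [h0]
    simp
  obtain ⟨P, hP⟩ := Finset.card_pos.mp (Nat.pos_of_ne_zero hcard)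
  rw [Finset.mem_filter, hA, Finset.mem_filter, Set.Finite.mem_toFinset] at hP
  obtain ⟨⟨⟨hPprime, hPmem⟩, hle⟩, hcardP⟩ := hP
  refine ⟨P, hPprime, hPmem, ?_⟩
  refine Subgroup.eq_of_le_of_card_ge hle ?_
  rw [hcardP, Nat.card_zpowers]

/-- **FDT-C.** -/
theorem existsDecEq_of (hA : DegOneCountStatement) (hB : LocalCountStatement)
    (hU : FiniteRamifiedStatement) : ExistsDecEqStatement := by
  intro L _ _ _ g S
  obtain ⟨S₀, hS₀⟩ := hU L
  set n := orderOf g with hn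
  have hnpos : 0 < n := orderOf_pos g
  have hdens : ∀ d ∈ n.divisors, ∃ C : ℝ, ∀ᶠ s : ℝ in 𝓝[>] 1,
      |(∑' ℓ : {ℓ : ℕ // ℓ.Prime ∧ ℓ ∉ S ∪ S₀},
          ((decCount L (Subgroup.zpowers (g ^ (n / d))) ℓ : ℕ) : ℝ) * ((ℓ : ℕ) : ℝ) ^ (-s))
        - d * Real.log (1 / (s - 1))| ≤ C := by
    intro d hd
    have hdn : d ∣ n := Nat.dvd_of_mem_divisors hd
    obtain ⟨C, hC⟩ := hA (IntermediateField.fixedField (Subgroup.zpowers (g ^ (n / d)))) (S ∪ S₀)
    refine ⟨d * |C|, ?_⟩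
    filter_upwards [hC] with s hs
    have hcard : Nat.card (Subgroup.zpowers (g ^ (n / d))) = d := card_zpowers_pow_div g hdn
    have hG : ∀ ℓ : {ℓ : ℕ // ℓ.Prime ∧ ℓ ∉ S ∪ S₀},
        ((decCount L (Subgroup.zpowers (g ^ (n / d))) ℓ : ℕ) : ℝ) * ((ℓ : ℕ) : ℝ) ^ (-s)
        = (d : ℝ) * ((Nat.card {u : HeightOneSpectrum
            (𝓞 (IntermediateField.fixedField (Subgroup.zpowers (g ^ (n / d))))) //
              Ideal.absNorm u.asIdeal = (ℓ : ℕ)} : ℝ) * ((ℓ : ℕ) : ℝ) ^ (-s)) := by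
      intro ℓ
      have hℓS₀ : (ℓ : ℕ) ∉ S₀ := fun h => ℓ.2.2 (Finset.mem_union_right _ h)
      have := hB L (Subgroup.zpowers (g ^ (n / d))) ℓ ℓ.2.1
        (fun P _ hP => hS₀ ℓ P ℓ.2.1 hℓS₀ hP)
      rw [this, hcard]
      push_cast
      ring
    simp_rw [hG, tsum_mul_left]
    rw [← mul_sub, abs_mul, abs_of_nonneg (Nat.cast_nonneg d)]
    exact mul_le_mul_of_nonneg_left (hs.trans (le_abs_self C)) (Nat.cast_nonneg d)
  obtain ⟨ℓ, hℓ⟩ := exists_moebius_sum_ne_zero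
    (fun (ℓ : {ℓ : ℕ // ℓ.Prime ∧ ℓ ∉ S ∪ S₀}) (s : ℝ) => ((ℓ : ℕ) : ℝ) ^ (-s)) n hnpos
    (fun d ℓ => decCount L (Subgroup.zpowers (g ^ (n / d))) ℓ) hdens
  obtain ⟨P, hP, hmem, hstab⟩ :=
    exists_stabilizer_eq_of_moebius_ne_zero L g ℓ ℓ.2.1.ne_zero hℓ
  exact ⟨ℓ, ℓ.2.1, fun h => ℓ.2.2 (Finset.mem_union_left _ h), P, hP, hmem, hstab⟩

end NumberField

end Fermat.Agent.H72
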