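import Fermat.Agent.H72.FDT.Interfaces
import Fermat.Agent.H72.FDT.DecEq
import Fermat.Agent.H72.FDT.Assembly
import Fermat.Agent.H73.FDTDegOne
import Fermat.Agent.H93.FDT.LocalCount
import Fermat.Agent.H55.FDT.FiniteRamified
import Fermat.Agent.H8.FDT.FrobGenerates
import Fermat.Agent.H79.ChebTrans

/-!
# P-FDT: the Frobenius density theorem (existence form), unconditional

* `existsDecEq`   : every cyclic subgroup `⟨g⟩` of a finite Galois group over `ℚ` is the
  decomposition group of a prime over some `ℓ ∉ S`;
* `frobPowFinite` : every `g` generates the same cyclic subgroup as an arithmetic Frobenius;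
* `frobPow`       : the same in the prelude language (places of `ℚ̄`, `IsFrobeniusAt`).

Inputs: FDT-A (helper73), FDT-B (helper93), FDT-U (helper55), FDT-D (helper8), FDT-E (helper79).
-/

set_option autoImplicit false

namespace Fermat.Agent.H72

/-- **FDT-C, unconditional.** -/
theorem existsDecEq : ExistsDecEqStatement :=
  existsDecEq_of Fermat.Agent.H73.degOneCountStatement Fermat.Agent.H93.fdt_localCountStatement
    Fermat.Agent.H55.finiteRamified

/-- **Frobenius density theorem, existence form, finite level.** -/
theorem frobPowFinite : FrobPowFiniteStatement :=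
  frobPowFinite_of existsDecEq Fermat.Agent.H8.FDT.frobGenerates Fermat.Agent.H55.finiteRamified

/-- **Frobenius density theorem, existence form, prelude language.** -/
theorem frobPow : FrobPowStatement :=
  Fermat.Agent.H79.frobPow_of_finite frobPowFinite

end Fermat.Agent.H72
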