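import Fermat.Agent.H72.FDT.Interfaces
import Fermat.Agent.H3.FrobInterfaces

/-!
# P-FDT: adapter from the `FrobeniusNFStatement` of the parallel route (helper3)

`frobPowFinite_of_frobeniusNF : H3.Frob.FrobeniusNFStatement → FrobPowFiniteStatement`.
-/

set_option autoImplicit false

open scoped NumberField Pointwise

namespace Fermat.Agent.H72

/-- A generator `g ^ k` (`k` prime to the order of `g`) of `⟨g⟩` which is a Frobenius gives the
weak Chebotarev conclusion. -/
theorem frobPowFinite_of_frobeniusNF (h : Fermat.Agent.H3.Frob.FrobeniusNFStatement.{0}) :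
    FrobPowFiniteStatement := by
  intro L _ _ _ g S
  obtain ⟨ℓ, hℓ, hℓS, P, hP, hℓP, k, hk, hfrob⟩ := h L g S
  obtain ⟨m, hm⟩ := exists_pow_eq_self_of_coprime hk
  exact ⟨ℓ, hℓ, hℓS, P, hP, hℓP, g ^ k, m, k, hfrob, hm.symm, rfl⟩

end Fermat.Agent.H72
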