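import Fermat.Agent.H72.FDT.Interfaces
import Fermat.Agent.H72.FDT.Assembly
import Fermat.Agent.H72.FDT.FromNF
import Fermat.Agent.H62.Cheb.Interfaces
import Fermat.Agent.H7.Frob.Interfaces

/-!
# P-FDT hub: adapters between the four parallel interface families of the Frobenius density
theorem (existence form)

* helper3 : `H3.Frob.FrobeniusNFStatement`  ⟹ `FrobPowFiniteStatement` (`frobPowFinite_of_frobeniusNF`,
  in `FromNF`);
* helper62: `H62.Cheb.FrobeniusNFStatement` ⟹ `ExistsDecEqStatement`;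
* helper7 : `H7.Frob.FrobGenStatement` ⟺ `FrobPowStatement`.
-/

set_option autoImplicit false

open scoped NumberField Pointwise
open IsDedekindDomain

namespace Fermat.Agent.H72

/-- The number-field statement of P-CHEB phase 1 implies the output of FDT-C. -/
theorem existsDecEq_of_chebFrobeniusNF (h : Fermat.Agent.H62.Cheb.FrobeniusNFStatement) :
    ExistsDecEqStatement := by
  intro L _ _ _ g S
  obtain ⟨p, hp, hpS, -, v, hv, hstab⟩ := h L g S
  exact ⟨p, hp, hpS, v.asIdeal, v.isPrime, hv, hstab⟩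

/-- The top statement of P-FROB is the same as `FrobPowStatement`. -/
theorem frobPow_iff_frobGen : FrobPowStatement ↔ Fermat.Agent.H7.Frob.FrobGenStatement := by
  constructor
  · intro h F hF g T
    obtain ⟨ℓ, A, σ, k, j, h1, h2, h3, h4, h5, h6⟩ := h F hF g T
    exact ⟨ℓ, A, σ, k, j, h1, h2, h3, h4, fun x hx => (h5 x hx).symm, fun x hx => (h6 x hx).symm⟩
  · intro h F hF g T
    obtain ⟨ℓ, A, σ, k, j, h1, h2, h3, h4, h5, h6⟩ := h F hF g T
    exact ⟨ℓ, A, σ, k, j, h1, h2, h3, h4, fun x hx => (h5 x hx).symm, fun x hx => (h6 x hx).symm⟩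

/-- The number-field statement of P-FROB implies `FrobPowFiniteStatement`. -/
theorem frobPowFinite_of_frobGenNF (h : Fermat.Agent.H7.Frob.FrobGenNumberFieldStatement)
    (hD : FrobGeneratesStatement) (hU : FiniteRamifiedStatement) : FrobPowFiniteStatement := by
  intro L _ _ _ g S
  obtain ⟨S₀, hS₀⟩ := hU L
  obtain ⟨P, ℓ, hP, hℓ, hℓS, hℓP, hgen⟩ := h L g (S ∪ S₀)
  have hℓS' : ℓ ∉ S := fun h => hℓS (Finset.mem_union_left _ h)
  have hℓS₀ : ℓ ∉ S₀ := fun h => hℓS (Finset.mem_union_right _ h)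
  have := hP
  have hunr : Algebra.IsUnramifiedAt ℤ P := hS₀ ℓ P hℓ hℓS₀ hℓP
  obtain ⟨τ, hτ, -⟩ := hD L P ℓ hℓ hℓP hunr
  have heq : Subgroup.zpowers τ = Subgroup.zpowers g := by
    refine hgen τ fun x => ⟨τ • x - x ^ ℓ, hτ x, ?_⟩
    have h1 : ((τ • x - x ^ ℓ : 𝓞 L) : L) = τ (x : L) - (x : L) ^ ℓ := by
      push_cast
      rfl
    rw [h1]
    ring
  have hg : g ∈ Subgroup.zpowers τ := heq ▸ Subgroup.mem_zpowers g
  have hτ' : τ ∈ Subgroup.zpowers g := heq.symm ▸ Subgroup.mem_zpowers τ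
  obtain ⟨k, hk⟩ := exists_npow_eq_of_mem_zpowers hg
  obtain ⟨j, hj⟩ := exists_npow_eq_of_mem_zpowers hτ'
  exact ⟨ℓ, hℓ, hℓS', P, hP, hℓP, τ, k, j, hτ, hk, hj⟩

end Fermat.Agent.H72
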